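/-
M3 (S24 cluster), germ piece (An2): Taylor germs of holomorphic functions on `ℍ` at a point
`z0 : ℍ`, in the disc coordinate `w = (z - z0)/(z - conj z0)`, as a ring homomorphism into
`PowerSeries ℂ`; injectivity, rotation by elements of `SL₂` fixing `z0`, and order.

The germ is the `q`-expansion of the pull-back along `τ ↦ z (exp (2 π i τ))`, where
`z w = (z0 - conj z0 * w)/(1 - w)` is the inverse of the disc coordinate.
-/
import Mathlib
import Fermat.Agent.S24.Germ.LaurentQ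

set_option autoImplicit false

open UpperHalfPlane Complex Filter Topology Function
open scoped Manifold Real ComplexConjugate MatrixGroups
open Fermat.Agent.S23.QF (IsQFun)

namespace Fermat.Agent.S24

/-! ### The inverse disc coordinate -/

/-- the inverse of the disc coordinate `w = (z - z0)/(z - conj z0)` -/
noncomputable def gm_zmap (z0 : ℍ) (w : ℂ) : ℂ := ((z0 : ℂ) - conj (z0 : ℂ) * w) / (1 - w)

theorem gm_zmap_zero (z0 : ℍ) : gm_zmap z0 0 = z0 := by simp [gm_zmap]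

theorem gm_one_sub_ne_zero {w : ℂ} (hw : ‖w‖ < 1) : 1 - w ≠ 0 := by
  intro h
  have : w = 1 := by linear_combination -h
  rw [this] at hw
  simp at hw

theorem gm_zmap_im (z0 : ℍ) {w : ℂ} (hw : ‖w‖ < 1) :
    (gm_zmap z0 w).im = z0.im * (1 - ‖w‖ ^ 2) / ‖1 - w‖ ^ 2 := by
  have h1 : 1 - w ≠ 0 := gm_one_sub_ne_zero hw
  have h2 : normSq (1 - w) ≠ 0 := by simpa [normSq_eq_zero] using h1
  rw [gm_zmap, Complex.div_im, ← Complex.normSq_eq_norm_sq, ← Complex.normSq_eq_norm_sq]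
  simp only [Complex.sub_im, Complex.sub_re, Complex.mul_im, Complex.mul_re, Complex.conj_re,
    Complex.conj_im, Complex.one_re, Complex.one_im, coe_im, coe_re, Complex.normSq_apply] at h2 ⊢
  field_simp
  ring

theorem gm_zmap_im_pos (z0 : ℍ) {w : ℂ} (hw : ‖w‖ < 1) : 0 < (gm_zmap z0 w).im := by
  rw [gm_zmap_im z0 hw]
  have h1 : 1 - w ≠ 0 := gm_one_sub_ne_zero hw
  have h2 : 0 < ‖1 - w‖ ^ 2 := by positivity
  have h3 : 0 < 1 - ‖w‖ ^ 2 := by nlinarith [norm_nonneg w]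
  exact div_pos (mul_pos z0.im_pos h3) h2

theorem gm_zmap_ne (z0 : ℍ) {w : ℂ} (hw : ‖w‖ < 1) (hw0 : w ≠ 0) : gm_zmap z0 w ≠ z0 := by
  have h1 : 1 - w ≠ 0 := gm_one_sub_ne_zero hw
  intro h
  rw [gm_zmap, div_eq_iff h1] at h
  have h2 : ((z0 : ℂ) - conj (z0 : ℂ)) * w = 0 := by linear_combination h
  have h3 : (z0 : ℂ) - conj (z0 : ℂ) ≠ 0 := by
    intro h4
    have := congrArg Complex.im h4
    simp only [Complex.sub_im, Complex.conj_im, coe_im, Complex.zero_im] at this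
    have := z0.im_pos
    linarith
  rcases mul_eq_zero.mp h2 with h4 | h4
  · exact h3 h4
  · exact hw0 h4

theorem gm_differentiableAt_zmap (z0 : ℍ) {w : ℂ} (hw : 1 - w ≠ 0) :
    DifferentiableAt ℂ (gm_zmap z0) w := by
  unfold gm_zmap
  fun_prop (disch := exact hw)

theorem gm_hasDerivAt_zmap_zero (z0 : ℍ) :
    HasDerivAt (gm_zmap z0) ((z0 : ℂ) - conj (z0 : ℂ)) 0 := by
  have h1 : HasDerivAt (fun w : ℂ => (z0 : ℂ) - conj (z0 : ℂ) * w) (-(conj (z0 : ℂ))) 0 := by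
    simpa using ((hasDerivAt_id (0 : ℂ)).const_mul (conj (z0 : ℂ))).const_sub (z0 : ℂ)
  have h2 : HasDerivAt (fun w : ℂ => 1 - w) (-1) 0 := by
    simpa using (hasDerivAt_id (0 : ℂ)).const_sub (1 : ℂ)
  have h3 := h1.div h2 (by simp)
  have h4 : gm_zmap z0 = (fun w : ℂ => (z0 : ℂ) - conj (z0 : ℂ) * w) / fun w : ℂ => 1 - w := rfl
  have h5 : (z0 : ℂ) - conj (z0 : ℂ)
      = (-(conj (z0 : ℂ)) * (1 - 0) - ((z0 : ℂ) - conj (z0 : ℂ) * 0) * -1) / (1 - 0) ^ 2 := by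
    simp
    ring
  rw [h4, h5]
  exact h3

/-! ### The uniformising map `ℍ → ℍ ∖ {z0}` -/

theorem gm_norm_qH_lt_one (τ : ℍ) : ‖qH τ‖ < 1 :=
  Periodic.norm_qParam_lt_one one_pos τ.im_pos

/-- `τ ↦ z (exp (2 π i τ))`: a holomorphic map from `ℍ` onto `ℍ ∖ {z0}`, tending to `z0` at `i∞` -/
noncomputable def gm_discMap (z0 : ℍ) (τ : ℍ) : ℍ :=
  ⟨gm_zmap z0 (qH τ), gm_zmap_im_pos z0 (gm_norm_qH_lt_one τ)⟩

theorem gm_coe_discMap (z0 τ : ℍ) : (gm_discMap z0 τ : ℂ) = gm_zmap z0 (qH τ) := rfl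

theorem gm_discMap_ne (z0 τ : ℍ) : gm_discMap z0 τ ≠ z0 := by
  intro h
  have := congrArg (fun z : ℍ => (z : ℂ)) h
  exact gm_zmap_ne z0 (gm_norm_qH_lt_one τ) (qH_ne_zero τ) this

theorem gm_discMap_vadd_one (z0 τ : ℍ) : gm_discMap z0 ((1 : ℝ) +ᵥ τ) = gm_discMap z0 τ := by
  apply UpperHalfPlane.ext
  rw [gm_coe_discMap, gm_coe_discMap, gm_vadd_of_periodic qH_periodic]

theorem gm_tendsto_discMap (z0 : ℍ) : Tendsto (gm_discMap z0) atImInfty (𝓝 z0) := by
  rw [isEmbedding_coe.tendsto_nhds_iff]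
  have h1 : ContinuousAt (gm_zmap z0) 0 :=
    (gm_differentiableAt_zmap z0 (by simp)).continuousAt
  have h2 := h1.tendsto.comp qH_tendsto
  rw [gm_zmap_zero] at h2
  exact h2

theorem gm_tendsto_discMap_ne (z0 : ℍ) : Tendsto (gm_discMap z0) atImInfty (𝓝[≠] z0) :=
  tendsto_nhdsWithin_iff.mpr
    ⟨gm_tendsto_discMap z0, Eventually.of_forall fun τ => gm_discMap_ne z0 τ⟩

theorem gm_isQFun_comp_discMap (z0 : ℍ) {h : ℍ → ℂ} (hh : MDiff h) :
    IsQFun (h ∘ gm_discMap z0) := by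
  refine ⟨?_, ?_, ?_⟩
  · refine gm_mdiff_comp hh (Θ := fun w => gm_zmap z0 (Periodic.qParam 1 w)) ?_ fun τ => rfl
    intro w hw
    have h1 : ‖Periodic.qParam 1 w‖ < 1 := Periodic.norm_qParam_lt_one one_pos hw
    refine DifferentiableAt.differentiableWithinAt ?_
    exact (gm_differentiableAt_zmap z0 (gm_one_sub_ne_zero h1)).comp w
      (Periodic.differentiable_qParam (h := 1)).differentiableAt
  · refine gm_periodic_of_vadd fun τ => ?_
    simp only [comp_apply, gm_discMap_vadd_one]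
  · have hc : ContinuousAt h z0 := hh.continuous.continuousAt
    have ht : Tendsto (h ∘ gm_discMap z0) atImInfty (𝓝 (h z0)) :=
      hc.tendsto.comp (gm_tendsto_discMap z0)
    exact ht.isBigO_one ℝ

theorem gm_tendsto_comp_discMap (z0 : ℍ) {h : ℍ → ℂ} (hh : MDiff h) :
    Tendsto (h ∘ gm_discMap z0) atImInfty (𝓝 (h z0)) :=
  (hh.continuous.continuousAt (x := z0)).tendsto.comp (gm_tendsto_discMap z0)

/-! ### Taylor germs -/

/-- the Taylor germ at `z0` of a holomorphic function on `ℍ`, in the disc coordinate -/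
noncomputable def gm_taylor (z0 : ℍ) (h : ℍ → ℂ) : PowerSeries ℂ :=
  qExpansion 1 (h ∘ gm_discMap z0)

theorem gm_taylor_add (z0 : ℍ) {f g : ℍ → ℂ} (hf : MDiff f) (hg : MDiff g) :
    gm_taylor z0 (f + g) = gm_taylor z0 f + gm_taylor z0 g :=
  qExpansion_add (gm_isQFun_comp_discMap z0 hf).analyticAt (gm_isQFun_comp_discMap z0 hg).analyticAt

theorem gm_taylor_mul (z0 : ℍ) {f g : ℍ → ℂ} (hf : MDiff f) (hg : MDiff g) :
    gm_taylor z0 (f * g) = gm_taylor z0 f * gm_taylor z0 g :=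
  qExpansion_mul (gm_isQFun_comp_discMap z0 hf).analyticAt (gm_isQFun_comp_discMap z0 hg).analyticAt

theorem gm_taylor_neg (z0 : ℍ) {f : ℍ → ℂ} (hf : MDiff f) :
    gm_taylor z0 (-f) = -gm_taylor z0 f :=
  qExpansion_neg (gm_isQFun_comp_discMap z0 hf).analyticAt

theorem gm_taylor_sub (z0 : ℍ) {f g : ℍ → ℂ} (hf : MDiff f) (hg : MDiff g) :
    gm_taylor z0 (f - g) = gm_taylor z0 f - gm_taylor z0 g :=
  qExpansion_sub (gm_isQFun_comp_discMap z0 hf).analyticAt (gm_isQFun_comp_discMap z0 hg).analyticAt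

theorem gm_taylor_const (z0 : ℍ) (c : ℂ) : gm_taylor z0 (fun _ => c) = PowerSeries.C c :=
  gm_qExpansion_const c

theorem gm_taylor_zero (z0 : ℍ) : gm_taylor z0 0 = 0 := qExpansion_zero 1

theorem gm_taylor_one (z0 : ℍ) : gm_taylor z0 1 = 1 := qExpansion_one 1

theorem gm_taylor_smul (z0 : ℍ) (c : ℂ) {f : ℍ → ℂ} (hf : MDiff f) :
    gm_taylor z0 (c • f) = c • gm_taylor z0 f :=
  qExpansion_smul (gm_isQFun_comp_discMap z0 hf).analyticAt c

theorem gm_taylor_pow (z0 : ℍ) {f : ℍ → ℂ} (hf : MDiff f) (n : ℕ) :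
    gm_taylor z0 (f ^ n) = gm_taylor z0 f ^ n :=
  Fermat.Agent.S23.QF.qExpansion_pow_of_isQFun (gm_isQFun_comp_discMap z0 hf) n

theorem gm_taylor_coeff_zero (z0 : ℍ) {f : ℍ → ℂ} (hf : MDiff f) :
    (gm_taylor z0 f).coeff 0 = f z0 := by
  have hq := gm_isQFun_comp_discMap z0 hf
  rw [gm_taylor, qExpansion_coeff_zero one_pos hq.analyticAt hq.periodic']
  exact IsQFun.valueAtInfty_eq hq (gm_tendsto_comp_discMap z0 hf)

/-- injectivity of the Taylor germ (identity theorem) -/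
theorem gm_taylor_eq_zero_iff (z0 : ℍ) {f : ℍ → ℂ} (hf : MDiff f) :
    gm_taylor z0 f = 0 ↔ f = 0 := by
  constructor
  · intro h
    have h1 : f ∘ gm_discMap z0 = 0 :=
      (gm_isQFun_comp_discMap z0 hf).qExpansion_eq_zero_iff.mp h
    refine UpperHalfPlane.eq_zero_of_frequently (τ := z0) hf ?_
    refine (gm_tendsto_discMap_ne z0).frequently (Frequently.of_forall fun τ => ?_)
    exact congrFun h1 τ
  · rintro rfl
    exact gm_taylor_zero z0

theorem gm_taylor_injective (z0 : ℍ) {f g : ℍ → ℂ} (hf : MDiff f) (hg : MDiff g)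
    (h : gm_taylor z0 f = gm_taylor z0 g) : f = g := by
  have h1 : gm_taylor z0 (f - g) = 0 := by rw [gm_taylor_sub z0 hf hg, h, sub_self]
  exact sub_eq_zero.mp ((gm_taylor_eq_zero_iff z0 (hf.sub hg)).mp h1)

/-! ### Rotation: elements of `SL₂` fixing `z0` act on germs by coefficient twists -/

theorem gm_moebius_zmap (z0 : ℍ) {a b c d : ℝ}
    (hfix : ((a : ℂ) * z0 + b) / ((c : ℂ) * z0 + d) = z0) {w : ℂ} (hw : 1 - w ≠ 0) :
    ((a : ℂ) * gm_zmap z0 w + b) / ((c : ℂ) * gm_zmap z0 w + d)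
      = gm_zmap z0 ((((c : ℂ) * conj (z0 : ℂ) + d) / ((c : ℂ) * z0 + d)) * w) := by
  set D : ℂ := (c : ℂ) * z0 + d with hD
  set D' : ℂ := (c : ℂ) * conj (z0 : ℂ) + d with hD'
  have hz0 : (z0 : ℂ) ≠ 0 := UpperHalfPlane.ne_zero z0
  have hD0 : D ≠ 0 := by
    intro h0
    rw [h0, div_zero] at hfix
    exact hz0 hfix.symm
  have e1 : (a : ℂ) * z0 + b = z0 * D := by rwa [div_eq_iff hD0] at hfix
  have e2 : (a : ℂ) * conj (z0 : ℂ) + b = conj (z0 : ℂ) * D' := by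
    have := congrArg (starRingEnd ℂ) e1
    simpa [hD, hD', map_add, map_mul, Complex.conj_ofReal] using this
  have n1 : (a : ℂ) * gm_zmap z0 w + b
      = ((z0 : ℂ) * D - conj (z0 : ℂ) * D' * w) / (1 - w) := by
    rw [gm_zmap, eq_div_iff hw]
    have h1 : ((a : ℂ) * (((z0 : ℂ) - conj (z0 : ℂ) * w) / (1 - w)) + b) * (1 - w)
        = (a : ℂ) * ((z0 : ℂ) - conj (z0 : ℂ) * w) + b * (1 - w) := by
      field_simp
    rw [h1]
    linear_combination e1 - w * e2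
  have d1 : (c : ℂ) * gm_zmap z0 w + d = (D - D' * w) / (1 - w) := by
    rw [gm_zmap, eq_div_iff hw]
    have h1 : ((c : ℂ) * (((z0 : ℂ) - conj (z0 : ℂ) * w) / (1 - w)) + d) * (1 - w)
        = (c : ℂ) * ((z0 : ℂ) - conj (z0 : ℂ) * w) + d * (1 - w) := by
      field_simp
    rw [h1, hD, hD']
    ring
  rw [n1, d1, div_div_div_cancel_right₀ hw, gm_zmap,
    ← mul_div_mul_right ((z0 : ℂ) - conj (z0 : ℂ) * (D' / D * w)) (1 - D' / D * w) hD0]
  congr 1
  · field_simp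
  · field_simp

section rotation

variable {R : Type*} [CommRing R] [Algebra R ℝ]

/-- the rotation number at a fixed point `z0` of `γ`: `(c conj z0 + d)/(c z0 + d)` -/
noncomputable def gm_rot (γ : SL(2, R)) (z0 : ℍ) : ℂ :=
  ((algebraMap R ℝ (γ 1 0) : ℂ) * conj (z0 : ℂ) + (algebraMap R ℝ (γ 1 1) : ℂ)) /
    ((algebraMap R ℝ (γ 1 0) : ℂ) * z0 + (algebraMap R ℝ (γ 1 1) : ℂ))

theorem gm_fix_eq (γ : SL(2, R)) {z0 : ℍ} (hγ : γ • z0 = z0) :
    ((algebraMap R ℝ (γ 0 0) : ℂ) * z0 + (algebraMap R ℝ (γ 0 1) : ℂ)) /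
      ((algebraMap R ℝ (γ 1 0) : ℂ) * z0 + (algebraMap R ℝ (γ 1 1) : ℂ)) = z0 := by
  rw [← coe_specialLinearGroup_apply, hγ]

theorem gm_denom_ne_zero (γ : SL(2, R)) {z0 : ℍ} (hγ : γ • z0 = z0) :
    (algebraMap R ℝ (γ 1 0) : ℂ) * z0 + (algebraMap R ℝ (γ 1 1) : ℂ) ≠ 0 := by
  intro h0
  have h := gm_fix_eq γ hγ
  rw [h0, div_zero] at h
  exact UpperHalfPlane.ne_zero z0 h.symm

theorem gm_norm_rot (γ : SL(2, R)) {z0 : ℍ} (hγ : γ • z0 = z0) : ‖gm_rot γ z0‖ = 1 := by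
  have hD := gm_denom_ne_zero γ hγ
  have h1 : (algebraMap R ℝ (γ 1 0) : ℂ) * conj (z0 : ℂ) + (algebraMap R ℝ (γ 1 1) : ℂ)
      = conj ((algebraMap R ℝ (γ 1 0) : ℂ) * z0 + (algebraMap R ℝ (γ 1 1) : ℂ)) := by
    simp [map_add, map_mul, Complex.conj_ofReal]
  rw [gm_rot, h1, norm_div, Complex.norm_conj, div_self (norm_ne_zero_iff.mpr hD)]

theorem gm_exists_rot_eq (γ : SL(2, R)) {z0 : ℍ} (hγ : γ • z0 = z0) :
    ∃ t : ℝ, cexp (2 * π * Complex.I * t) = gm_rot γ z0 := by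
  refine ⟨(gm_rot γ z0).arg / (2 * π), ?_⟩
  have h1 := Complex.norm_mul_exp_arg_mul_I (gm_rot γ z0)
  rw [gm_norm_rot γ hγ, Complex.ofReal_one, one_mul] at h1
  refine Eq.trans ?_ h1
  congr 1
  have hpi : (π : ℂ) ≠ 0 := by exact_mod_cast Real.pi_ne_zero
  push_cast
  field_simp

theorem gm_mdiff_comp_smul (γ : SL(2, R)) {f : ℍ → ℂ} (hf : MDiff f) :
    MDiff (fun z => f (γ • z)) := by
  have h1 : MDiff (fun τ : ℍ => (Matrix.SpecialLinearGroup.mapGL ℝ γ) • τ) :=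
    mdifferentiable_smul (by simp)
  exact hf.comp h1

/-- `γ` acts on the uniformising map by a real translation -/
theorem gm_smul_discMap (γ : SL(2, R)) {z0 : ℍ} (hγ : γ • z0 = z0) {t : ℝ}
    (ht : cexp (2 * π * Complex.I * t) = gm_rot γ z0) (τ : ℍ) :
    γ • gm_discMap z0 τ = gm_discMap z0 (t +ᵥ τ) := by
  apply UpperHalfPlane.ext
  rw [coe_specialLinearGroup_apply, gm_coe_discMap, gm_coe_discMap, gm_qH_vadd, ht]
  exact gm_moebius_zmap z0 (gm_fix_eq γ hγ) (gm_one_sub_ne_zero (gm_norm_qH_lt_one τ))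

/-- **rotation**: for `γ` fixing `z0`, the germ of `f ∘ γ` is the germ of `f` twisted by
`gm_rot γ z0` -/
theorem gm_taylor_coeff_smul (γ : SL(2, R)) {z0 : ℍ} (hγ : γ • z0 = z0) {f : ℍ → ℂ}
    (hf : MDiff f) (n : ℕ) :
    (gm_taylor z0 (fun z => f (γ • z))).coeff n = gm_rot γ z0 ^ n * (gm_taylor z0 f).coeff n := by
  obtain ⟨t, ht⟩ := gm_exists_rot_eq γ hγ
  have h1 : (fun z => f (γ • z)) ∘ gm_discMap z0
      = fun τ => (f ∘ gm_discMap z0) (t +ᵥ τ) := by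
    ext τ
    simp only [comp_apply, gm_smul_discMap γ hγ ht]
  rw [gm_taylor, h1, gm_qExpansion_vadd (gm_isQFun_comp_discMap z0 hf), ht, gm_taylor]

theorem gm_rot_eq_one_iff (γ : SL(2, R)) {z0 : ℍ} (hγ : γ • z0 = z0) :
    gm_rot γ z0 = 1 ↔ algebraMap R ℝ (γ 1 0) = 0 := by
  have hD := gm_denom_ne_zero γ hγ
  rw [gm_rot, div_eq_one_iff_eq hD]
  constructor
  · intro h
    have h1 : (algebraMap R ℝ (γ 1 0) : ℂ) * (conj (z0 : ℂ) - z0) = 0 := by
      linear_combination h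
    have h2 : conj (z0 : ℂ) - z0 ≠ 0 := by
      intro h4
      have := congrArg Complex.im h4
      simp only [Complex.sub_im, Complex.conj_im, coe_im, Complex.zero_im] at this
      have := z0.im_pos
      linarith
    rcases mul_eq_zero.mp h1 with h3 | h3
    · exact_mod_cast h3
    · exact absurd h3 h2
  · intro h
    rw [h]
    simp

end rotation

/-- the version for `SL(2, ℤ)` with integer casts -/
theorem gm_rot_int (γ : SL(2, ℤ)) (z0 : ℍ) :
    gm_rot γ z0 = (((γ 1 0 : ℤ) : ℂ) * conj (z0 : ℂ) + ((γ 1 1 : ℤ) : ℂ)) /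
      (((γ 1 0 : ℤ) : ℂ) * z0 + ((γ 1 1 : ℤ) : ℂ)) := by
  simp [gm_rot]

theorem gm_rot_S_I : gm_rot ModularGroup.S UpperHalfPlane.I = -1 := by
  rw [gm_rot_int]
  simp [ModularGroup.S, UpperHalfPlane.I]

/-! ### The order of a Taylor germ -/

theorem gm_qExpansion_order_eq {G : ℍ → ℂ} (hG : IsQFun G) :
    (qExpansion 1 G).order = analyticOrderAt (cuspFunction 1 G) 0 := by
  refine ENat.eq_of_forall_natCast_le_iff fun n => ?_
  rw [natCast_le_analyticOrderAt_iff_iteratedDeriv_eq_zero hG.analyticAt]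
  constructor
  · intro h i hi
    have h1 := PowerSeries.coeff_of_lt_order i (lt_of_lt_of_le (by exact_mod_cast hi) h)
    rw [qExpansion_coeff] at h1
    rcases mul_eq_zero.mp h1 with h2 | h2
    · exact absurd h2 (inv_ne_zero (by exact_mod_cast Nat.factorial_ne_zero i))
    · exact h2
  · intro h
    refine PowerSeries.nat_le_order _ n fun i hi => ?_
    rw [qExpansion_coeff, h i hi, mul_zero]

theorem gm_cuspFunction_comp_discMap (z0 : ℍ) {f : ℍ → ℂ} (hf : MDiff f) {w : ℂ}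
    (hw : ‖w‖ < 1) :
    cuspFunction 1 (f ∘ gm_discMap z0) w = f (ofComplex (gm_zmap z0 w)) := by
  have hq := gm_isQFun_comp_discMap z0 hf
  by_cases hw0 : w = 0
  · subst hw0
    rw [cuspFunction_apply_zero one_pos hq.analyticAt hq.periodic', gm_zmap_zero, ofComplex_apply]
    exact IsQFun.valueAtInfty_eq hq (gm_tendsto_comp_discMap z0 hf)
  · have h1 := Periodic.im_invQParam_pos_of_norm_lt_one one_pos hw hw0
    have h2 : cuspFunction 1 (f ∘ gm_discMap z0) w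
        = ((f ∘ gm_discMap z0) ∘ ofComplex) (Periodic.invQParam 1 w) :=
      Periodic.cuspFunction_eq_of_nonzero 1 _ hw0
    rw [h2]
    simp only [comp_apply, ofComplex_apply_of_im_pos h1,
      ofComplex_apply_of_im_pos (gm_zmap_im_pos z0 hw)]
    congr 1
    apply UpperHalfPlane.ext
    rw [gm_coe_discMap]
    simp only [qH]
    rw [Periodic.qParam_right_inv one_ne_zero hw0]

theorem gm_analyticAt_zmap_zero (z0 : ℍ) : AnalyticAt ℂ (gm_zmap z0) 0 := by
  unfold gm_zmap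
  refine AnalyticAt.div (by fun_prop) (by fun_prop) (by simp)

theorem gm_deriv_zmap_zero_ne (z0 : ℍ) : deriv (gm_zmap z0) 0 ≠ 0 := by
  rw [(gm_hasDerivAt_zmap_zero z0).deriv]
  intro h4
  have := congrArg Complex.im h4
  simp only [Complex.sub_im, Complex.conj_im, coe_im, Complex.zero_im] at this
  have := z0.im_pos
  linarith

/-- the order of the Taylor germ is the analytic order of `f` at `z0` -/
theorem gm_taylor_order (z0 : ℍ) {f : ℍ → ℂ} (hf : MDiff f) :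
    (gm_taylor z0 f).order = analyticOrderAt (f ∘ ofComplex) (z0 : ℂ) := by
  rw [gm_taylor, gm_qExpansion_order_eq (gm_isQFun_comp_discMap z0 hf)]
  have h1 : cuspFunction 1 (f ∘ gm_discMap z0) =ᶠ[𝓝 0] (f ∘ ofComplex) ∘ gm_zmap z0 := by
    filter_upwards [Metric.ball_mem_nhds (0 : ℂ) one_pos] with w hw
    exact gm_cuspFunction_comp_discMap z0 hf (by simpa using hw)
  rw [analyticOrderAt_congr h1,
    analyticOrderAt_comp_of_deriv_ne_zero (gm_analyticAt_zmap_zero z0) (gm_deriv_zmap_zero_ne z0),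
    gm_zmap_zero]

/-- in the shape used for `j - j z0` -/
theorem gm_taylor_order_sub_const (z0 : ℍ) {f : ℍ → ℂ} (hf : MDiff f) :
    (gm_taylor z0 (fun z => f z - f z0)).order
      = analyticOrderAt (fun w : ℂ => f (ofComplex w) - f z0) (z0 : ℂ) :=
  gm_taylor_order z0 (hf.sub mdifferentiable_const)

end Fermat.Agent.S24
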