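/-
M3 (S24 cluster), germ pieces (G0): Laurent `q`-expansions of holomorphic `1`-periodic functions
on `ℍ` that are meromorphic at `i∞`, as a ring homomorphism into `LaurentSeries ℂ`, injective,
and turning real translations `z ↦ a + z` into coefficient twists by `exp (2 π i a)`.
-/
import Mathlib
import Fermat.Agent.S23.QFun
import Fermat.Agent.S24.KleinJ

set_option autoImplicit false

open UpperHalfPlane Complex Filter Topology Function
open scoped Manifold Real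
open Fermat.Agent.S23.QF (IsQFun)

namespace Fermat.Agent.S24

/-! ### Generalities on holomorphic self-maps of `ℍ` and periodicity -/

/-- composition of a holomorphic function on `ℍ` with a holomorphic self-map of `ℍ` -/
theorem gm_mdiff_comp {G : ℍ → ℂ} (hG : MDiff G) {θ : ℍ → ℍ} {Θ : ℂ → ℂ}
    (hΘ : DifferentiableOn ℂ Θ {z : ℂ | 0 < z.im}) (hθ : ∀ τ : ℍ, (θ τ : ℂ) = Θ τ) :
    MDiff (G ∘ θ) := by
  rw [UpperHalfPlane.mdifferentiable_iff] at hG ⊢
  have hmaps : Set.MapsTo Θ {z : ℂ | 0 < z.im} {z : ℂ | 0 < z.im} := by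
    intro w hw
    have h1 := hθ ⟨w, hw⟩
    show 0 < (Θ w).im
    rw [← h1]
    exact (θ ⟨w, hw⟩).im_pos
  refine (hG.comp hΘ hmaps).congr fun w hw => ?_
  have hw' : 0 < (Θ w).im := hmaps hw
  simp only [comp_apply, ofComplex_apply_of_im_pos hw, ofComplex_apply_of_im_pos hw']
  congr 1
  apply UpperHalfPlane.ext
  simpa using hθ ⟨w, hw⟩

/-- periodicity of `F ∘ ofComplex` from invariance under `τ ↦ 1 + τ` on `ℍ` -/
theorem gm_periodic_of_vadd {F : ℍ → ℂ} (h : ∀ τ : ℍ, F ((1 : ℝ) +ᵥ τ) = F τ) :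
    Periodic (F ∘ ofComplex) (1 : ℂ) := by
  intro w
  by_cases hw : 0 < w.im
  · have hw1 : 0 < (w + 1).im := by simpa using hw
    simp only [comp_apply, ofComplex_apply_of_im_pos hw, ofComplex_apply_of_im_pos hw1]
    rw [← h ⟨w, hw⟩]
    congr 1
    apply UpperHalfPlane.ext
    simp [add_comm]
  · have hw0 : w.im ≤ 0 := not_lt.mp hw
    have hw1 : (w + 1).im ≤ 0 := by simpa using hw0
    simp [comp_apply, ofComplex_apply_of_im_nonpos hw0, ofComplex_apply_of_im_nonpos hw1]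

/-- invariance under `τ ↦ 1 + τ` from periodicity of `F ∘ ofComplex` -/
theorem gm_vadd_of_periodic {F : ℍ → ℂ} (h : Periodic (F ∘ ofComplex) (1 : ℂ)) (τ : ℍ) :
    F ((1 : ℝ) +ᵥ τ) = F τ := by
  have h1 := h (τ : ℂ)
  have hw1 : 0 < ((τ : ℂ) + 1).im := by simpa using τ.im_pos
  simp only [comp_apply, ofComplex_apply, ofComplex_apply_of_im_pos hw1] at h1
  rw [← h1]
  congr 1
  apply UpperHalfPlane.ext
  simp [add_comm]

theorem gm_qH_vadd (a : ℝ) (τ : ℍ) : qH (a +ᵥ τ) = cexp (2 * π * Complex.I * a) * qH τ := by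
  simp only [qH, Periodic.qParam, coe_vadd, ofReal_one, div_one]
  rw [← Complex.exp_add]
  congr 1
  ring

theorem gm_isQFun_vadd {G : ℍ → ℂ} (hG : IsQFun G) (a : ℝ) : IsQFun (fun τ => G (a +ᵥ τ)) := by
  refine ⟨?_, ?_, ?_⟩
  · have : (fun τ : ℍ => G (a +ᵥ τ)) = G ∘ (fun τ : ℍ => a +ᵥ τ) := rfl
    rw [this]
    refine gm_mdiff_comp hG.mdiff (Θ := fun w => (a : ℂ) + w) ?_ fun τ => by simp
    exact (differentiable_id.const_add _).differentiableOn
  · refine gm_periodic_of_vadd fun τ => ?_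
    have h := gm_vadd_of_periodic hG.periodic (a +ᵥ τ)
    rw [← h]
    congr 1
    apply UpperHalfPlane.ext
    simp only [coe_vadd]
    push_cast
    ring
  · have h := hG.bdd
    rw [UpperHalfPlane.isBoundedAtImInfty_iff] at h ⊢
    obtain ⟨M, A, hMA⟩ := h
    refine ⟨M, A, fun z hz => hMA _ ?_⟩
    simpa using hz

/-! ### Uniqueness of `q`-expansions for `IsQFun` -/

theorem gm_hasSum {G : ℍ → ℂ} (hG : IsQFun G) (τ : ℍ) :
    HasSum (fun m : ℕ => (qExpansion 1 G).coeff m • qH τ ^ m) (G τ) :=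
  hasSum_qExpansion one_pos hG.periodic' hG.mdiff hG.bdd τ

theorem gm_coeff_unique {G : ℍ → ℂ} (hG : IsQFun G) {c : ℕ → ℂ}
    (h : ∀ τ : ℍ, HasSum (fun m : ℕ => c m • qH τ ^ m) (G τ)) (m : ℕ) :
    (qExpansion 1 G).coeff m = c m := by
  have h1 := (hasFPowerSeriesOnBall_cuspFunction (h := 1) (c := c) one_pos hG.analyticAt
    h).hasFPowerSeriesAt
  have h2 : HasFPowerSeriesAt (cuspFunction 1 G)
      (.ofScalars ℂ fun m => (qExpansion 1 G).coeff m) 0 := by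
    simpa [qExpansion_coeff, div_eq_mul_inv, mul_comm] using hG.analyticAt.hasFPowerSeriesAt
  have := congr_arg (FormalMultilinearSeries.coeff · m) (h1.eq_formalMultilinearSeries h2)
  simpa [FormalMultilinearSeries.coeff_ofScalars] using this.symm

theorem gm_qExpansion_vadd {G : ℍ → ℂ} (hG : IsQFun G) (a : ℝ) (n : ℕ) :
    (qExpansion 1 (fun τ => G (a +ᵥ τ))).coeff n
      = cexp (2 * π * Complex.I * a) ^ n * (qExpansion 1 G).coeff n := by
  refine gm_coeff_unique (gm_isQFun_vadd hG a)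
    (c := fun n => cexp (2 * π * Complex.I * a) ^ n * (qExpansion 1 G).coeff n) (fun τ => ?_) n
  have h := gm_hasSum hG (a +ᵥ τ)
  refine h.congr_fun fun m => ?_
  simp only [gm_qH_vadd, smul_eq_mul, mul_pow]
  ring

theorem gm_qExpansion_qH : qExpansion 1 qH = PowerSeries.X := by
  ext n
  rw [gm_coeff_unique isQFun_qH (c := fun m => if m = 1 then 1 else 0) (fun τ => ?_) n,
    PowerSeries.coeff_X]
  have h := hasSum_ite_eq (1 : ℕ) (qH τ)
  refine h.congr_fun fun m => ?_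
  by_cases hm : m = 1
  · simp [hm]
  · simp [hm]

theorem gm_qExpansion_const (c : ℂ) : qExpansion 1 (fun _ : ℍ => c) = PowerSeries.C c := by
  have h1 : (fun _ : ℍ => c) = c • (1 : ℍ → ℂ) := by ext; simp
  rw [h1, qExpansion_smul IsQFun.one.analyticAt, qExpansion_one]
  ext n
  simp [PowerSeries.coeff_C, PowerSeries.coeff_one]

theorem gm_qExpansion_qH_pow_mul {G : ℍ → ℂ} (hG : IsQFun G) (k : ℕ) :
    qExpansion 1 (qH ^ k * G) = PowerSeries.X ^ k * qExpansion 1 G := by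
  rw [qExpansion_mul (isQFun_qH.pow k).analyticAt hG.analyticAt,
    Fermat.Agent.S23.QF.qExpansion_pow_of_isQFun isQFun_qH, gm_qExpansion_qH]

/-! ### Functions meromorphic at `i∞` and their Laurent expansions -/

/-- `g` is holomorphic on `ℍ`, `1`-periodic and meromorphic at `i∞` -/
def gm_IsMerQ (g : ℍ → ℂ) : Prop := ∃ m : ℕ, IsQFun (qH ^ m * g)

theorem gm_isQFun_of_le {g : ℍ → ℂ} {m n : ℕ} (h : IsQFun (qH ^ m * g)) (hmn : m ≤ n) :
    IsQFun (qH ^ n * g) := by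
  have : qH ^ n * g = qH ^ (n - m) * (qH ^ m * g) := by
    rw [← mul_assoc, ← pow_add, Nat.sub_add_cancel hmn]
  rw [this]
  exact (isQFun_qH.pow _).mul h

theorem gm_IsMerQ.of_isQFun {g : ℍ → ℂ} (h : IsQFun g) : gm_IsMerQ g :=
  ⟨0, by simpa using h⟩

theorem gm_IsMerQ.mdiff {g : ℍ → ℂ} (h : gm_IsMerQ g) : MDiff g := by
  obtain ⟨m, hm⟩ := h
  have h1 : g = (qH ^ m * g) / qH ^ m := by
    ext τ
    simp only [Pi.div_apply, Pi.mul_apply, Pi.pow_apply]
    field_simp [qH_ne_zero τ]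
  rw [h1]
  exact MDifferentiable.div hm.mdiff (isQFun_qH.pow m).mdiff
    fun τ => by simpa using pow_ne_zero m (qH_ne_zero τ)

theorem gm_IsMerQ.vadd_one {g : ℍ → ℂ} (h : gm_IsMerQ g) (τ : ℍ) :
    g ((1 : ℝ) +ᵥ τ) = g τ := by
  obtain ⟨m, hm⟩ := h
  have h1 := gm_vadd_of_periodic hm.periodic τ
  have h2 := gm_vadd_of_periodic qH_periodic τ
  simp only [Pi.mul_apply, Pi.pow_apply, h2] at h1
  exact mul_left_cancel₀ (pow_ne_zero m (qH_ne_zero τ)) h1

open Classical in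
/-- the Laurent `q`-expansion of a function meromorphic at `i∞` (and `0` for other functions) -/
noncomputable def gm_lq (g : ℍ → ℂ) : LaurentSeries ℂ :=
  if h : gm_IsMerQ g then
    HahnSeries.single (-(h.choose : ℤ)) (1 : ℂ)
      * HahnSeries.ofPowerSeries ℤ ℂ (qExpansion 1 (qH ^ h.choose * g))
  else 0

theorem gm_single_mul_aux {g : ℍ → ℂ} {m : ℕ} (h : IsQFun (qH ^ m * g)) (k : ℕ) :
    HahnSeries.single (-((m + k : ℕ) : ℤ)) (1 : ℂ)
        * HahnSeries.ofPowerSeries ℤ ℂ (qExpansion 1 (qH ^ (m + k) * g))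
      = HahnSeries.single (-(m : ℤ)) (1 : ℂ)
        * HahnSeries.ofPowerSeries ℤ ℂ (qExpansion 1 (qH ^ m * g)) := by
  have h1 : qH ^ (m + k) * g = qH ^ k * (qH ^ m * g) := by
    rw [← mul_assoc, ← pow_add, add_comm]
  rw [h1, gm_qExpansion_qH_pow_mul h, map_mul, map_pow, HahnSeries.ofPowerSeries_X, ← mul_assoc,
    HahnSeries.single_pow, HahnSeries.single_mul_single]
  congr 2
  · push_cast; simp
  · simp

theorem gm_lq_eq {g : ℍ → ℂ} {m : ℕ} (h : IsQFun (qH ^ m * g)) :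
    gm_lq g = HahnSeries.single (-(m : ℤ)) (1 : ℂ)
      * HahnSeries.ofPowerSeries ℤ ℂ (qExpansion 1 (qH ^ m * g)) := by
  have hg : gm_IsMerQ g := ⟨m, h⟩
  rw [gm_lq, dif_pos hg]
  have h0 := hg.choose_spec
  rw [← gm_single_mul_aux h0 m, ← gm_single_mul_aux h hg.choose, add_comm]

theorem gm_lq_of_not {g : ℍ → ℂ} (h : ¬ gm_IsMerQ g) : gm_lq g = 0 := by
  rw [gm_lq, dif_neg h]

/-! ### Closure properties of `gm_IsMerQ` -/

theorem gm_IsMerQ.const (c : ℂ) : gm_IsMerQ (fun _ : ℍ => c) :=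
  gm_IsMerQ.of_isQFun (IsQFun.const c)

theorem gm_IsMerQ.zero : gm_IsMerQ (0 : ℍ → ℂ) := gm_IsMerQ.of_isQFun IsQFun.zero

theorem gm_IsMerQ.one : gm_IsMerQ (1 : ℍ → ℂ) := gm_IsMerQ.of_isQFun IsQFun.one

theorem gm_IsMerQ.add {f g : ℍ → ℂ} (hf : gm_IsMerQ f) (hg : gm_IsMerQ g) :
    gm_IsMerQ (f + g) := by
  obtain ⟨m, hm⟩ := hf
  obtain ⟨n, hn⟩ := hg
  refine ⟨m + n, ?_⟩
  rw [mul_add]
  exact (gm_isQFun_of_le hm (Nat.le_add_right m n)).add (gm_isQFun_of_le hn (Nat.le_add_left n m))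

theorem gm_IsMerQ.neg {f : ℍ → ℂ} (hf : gm_IsMerQ f) : gm_IsMerQ (-f) := by
  obtain ⟨m, hm⟩ := hf
  refine ⟨m, ?_⟩
  rw [mul_neg]
  exact hm.neg

theorem gm_IsMerQ.sub {f g : ℍ → ℂ} (hf : gm_IsMerQ f) (hg : gm_IsMerQ g) :
    gm_IsMerQ (f - g) := by
  rw [sub_eq_add_neg]
  exact hf.add hg.neg

theorem gm_IsMerQ.mul {f g : ℍ → ℂ} (hf : gm_IsMerQ f) (hg : gm_IsMerQ g) :
    gm_IsMerQ (f * g) := by
  obtain ⟨m, hm⟩ := hf
  obtain ⟨n, hn⟩ := hg
  refine ⟨m + n, ?_⟩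
  have : qH ^ (m + n) * (f * g) = (qH ^ m * f) * (qH ^ n * g) := by
    rw [pow_add]; ring
  rw [this]
  exact hm.mul hn

theorem gm_IsMerQ.smul {f : ℍ → ℂ} (c : ℂ) (hf : gm_IsMerQ f) : gm_IsMerQ (c • f) := by
  have : c • f = (fun _ : ℍ => c) * f := by ext; simp
  rw [this]
  exact (gm_IsMerQ.const c).mul hf

theorem gm_IsMerQ.pow {f : ℍ → ℂ} (hf : gm_IsMerQ f) (n : ℕ) : gm_IsMerQ (f ^ n) := by
  induction n with
  | zero => simpa using gm_IsMerQ.one
  | succ n ih => rw [pow_succ]; exact ih.mul hf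

theorem gm_IsMerQ.sum {ι : Type*} (s : Finset ι) {F : ι → ℍ → ℂ}
    (hF : ∀ i ∈ s, gm_IsMerQ (F i)) : gm_IsMerQ (∑ i ∈ s, F i) := by
  classical
  induction s using Finset.induction_on with
  | empty => simpa using gm_IsMerQ.zero
  | insert a s ha ih =>
    rw [Finset.sum_insert ha]
    exact (hF a (Finset.mem_insert_self a s)).add
      (ih fun i hi => hF i (Finset.mem_insert_of_mem hi))

theorem gm_IsMerQ.prod {ι : Type*} (s : Finset ι) {F : ι → ℍ → ℂ}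
    (hF : ∀ i ∈ s, gm_IsMerQ (F i)) : gm_IsMerQ (∏ i ∈ s, F i) := by
  classical
  induction s using Finset.induction_on with
  | empty => simpa using gm_IsMerQ.one
  | insert a s ha ih =>
    rw [Finset.prod_insert ha]
    exact (hF a (Finset.mem_insert_self a s)).mul
      (ih fun i hi => hF i (Finset.mem_insert_of_mem hi))

theorem gm_isMerQ_qH : gm_IsMerQ qH := gm_IsMerQ.of_isQFun isQFun_qH

theorem gm_isMerQ_kleinJ : gm_IsMerQ kleinJ := ⟨1, by simpa using isQFun_qH_mul_kleinJ⟩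

/-! ### `gm_lq` is a ring homomorphism on functions meromorphic at `i∞` -/

theorem gm_lq_of_isQFun {g : ℍ → ℂ} (h : IsQFun g) :
    gm_lq g = HahnSeries.ofPowerSeries ℤ ℂ (qExpansion 1 g) := by
  have h0 : IsQFun (qH ^ 0 * g) := by simpa using h
  rw [gm_lq_eq h0]
  simp

theorem gm_lq_const (c : ℂ) : gm_lq (fun _ : ℍ => c) = HahnSeries.C c := by
  rw [gm_lq_of_isQFun (IsQFun.const c), gm_qExpansion_const, HahnSeries.ofPowerSeries_C]

theorem gm_lq_zero : gm_lq (0 : ℍ → ℂ) = 0 := by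
  have := gm_lq_const 0
  rw [map_zero] at this
  exact this

theorem gm_lq_one : gm_lq (1 : ℍ → ℂ) = 1 := by
  have := gm_lq_const 1
  rw [map_one] at this
  exact this

theorem gm_lq_add {f g : ℍ → ℂ} (hf : gm_IsMerQ f) (hg : gm_IsMerQ g) :
    gm_lq (f + g) = gm_lq f + gm_lq g := by
  obtain ⟨m, hm⟩ := hf
  obtain ⟨n, hn⟩ := hg
  have hm' := gm_isQFun_of_le hm (Nat.le_add_right m n)
  have hn' := gm_isQFun_of_le hn (Nat.le_add_left n m)
  have hs : IsQFun (qH ^ (m + n) * (f + g)) := by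
    rw [mul_add]; exact hm'.add hn'
  rw [gm_lq_eq hs, gm_lq_eq hm', gm_lq_eq hn', mul_add,
    qExpansion_add hm'.analyticAt hn'.analyticAt, map_add, mul_add]

theorem gm_lq_neg {f : ℍ → ℂ} (hf : gm_IsMerQ f) : gm_lq (-f) = -gm_lq f := by
  obtain ⟨m, hm⟩ := hf
  have hs : IsQFun (qH ^ m * (-f)) := by rw [mul_neg]; exact hm.neg
  rw [gm_lq_eq hs, gm_lq_eq hm, mul_neg, qExpansion_neg hm.analyticAt, map_neg]
  ring

theorem gm_lq_sub {f g : ℍ → ℂ} (hf : gm_IsMerQ f) (hg : gm_IsMerQ g) :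
    gm_lq (f - g) = gm_lq f - gm_lq g := by
  rw [sub_eq_add_neg, gm_lq_add hf hg.neg, gm_lq_neg hg, sub_eq_add_neg]

theorem gm_lq_mul {f g : ℍ → ℂ} (hf : gm_IsMerQ f) (hg : gm_IsMerQ g) :
    gm_lq (f * g) = gm_lq f * gm_lq g := by
  obtain ⟨m, hm⟩ := hf
  obtain ⟨n, hn⟩ := hg
  have he : qH ^ (m + n) * (f * g) = (qH ^ m * f) * (qH ^ n * g) := by
    rw [pow_add]; ring
  have hs : IsQFun (qH ^ (m + n) * (f * g)) := by rw [he]; exact hm.mul hn
  rw [gm_lq_eq hs, gm_lq_eq hm, gm_lq_eq hn, he, qExpansion_mul hm.analyticAt hn.analyticAt,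
    map_mul]
  have h1 : HahnSeries.single (-((m + n : ℕ) : ℤ)) (1 : ℂ)
      = HahnSeries.single (-(m : ℤ)) (1 : ℂ) * HahnSeries.single (-(n : ℤ)) (1 : ℂ) := by
    have h2 : (-((m + n : ℕ) : ℤ)) = -(m : ℤ) + -(n : ℤ) := by push_cast; ring
    rw [HahnSeries.single_mul_single, h2, mul_one]
  rw [h1]
  ring

theorem gm_lq_smul {f : ℍ → ℂ} (c : ℂ) (hf : gm_IsMerQ f) :
    gm_lq (c • f) = HahnSeries.C c * gm_lq f := by
  have : c • f = (fun _ : ℍ => c) * f := by ext; simp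
  rw [this, gm_lq_mul (gm_IsMerQ.const c) hf, gm_lq_const]

theorem gm_lq_pow {f : ℍ → ℂ} (hf : gm_IsMerQ f) (n : ℕ) : gm_lq (f ^ n) = gm_lq f ^ n := by
  induction n with
  | zero => simpa using gm_lq_one
  | succ n ih => rw [pow_succ, pow_succ, gm_lq_mul (hf.pow n) hf, ih]

theorem gm_lq_sum {ι : Type*} (s : Finset ι) {F : ι → ℍ → ℂ}
    (hF : ∀ i ∈ s, gm_IsMerQ (F i)) : gm_lq (∑ i ∈ s, F i) = ∑ i ∈ s, gm_lq (F i) := by
  classical
  induction s using Finset.induction_on with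
  | empty => simpa using gm_lq_zero
  | insert a s ha ih =>
    have hs : ∀ i ∈ s, gm_IsMerQ (F i) := fun i hi => hF i (Finset.mem_insert_of_mem hi)
    rw [Finset.sum_insert ha, Finset.sum_insert ha,
      gm_lq_add (hF a (Finset.mem_insert_self a s)) (gm_IsMerQ.sum s hs), ih hs]

theorem gm_lq_prod {ι : Type*} (s : Finset ι) {F : ι → ℍ → ℂ}
    (hF : ∀ i ∈ s, gm_IsMerQ (F i)) : gm_lq (∏ i ∈ s, F i) = ∏ i ∈ s, gm_lq (F i) := by
  classical
  induction s using Finset.induction_on with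
  | empty => simpa using gm_lq_one
  | insert a s ha ih =>
    have hs : ∀ i ∈ s, gm_IsMerQ (F i) := fun i hi => hF i (Finset.mem_insert_of_mem hi)
    rw [Finset.prod_insert ha, Finset.prod_insert ha,
      gm_lq_mul (hF a (Finset.mem_insert_self a s)) (gm_IsMerQ.prod s hs), ih hs]

theorem gm_single_ne_zero (k : ℤ) : HahnSeries.single k (1 : ℂ) ≠ (0 : LaurentSeries ℂ) := by
  intro h
  have := congrArg (fun x => HahnSeries.coeff x k) h
  simp at this

/-- injectivity of the Laurent `q`-expansion -/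
theorem gm_lq_eq_zero_iff {g : ℍ → ℂ} (hg : gm_IsMerQ g) : gm_lq g = 0 ↔ g = 0 := by
  constructor
  · intro h
    obtain ⟨m, hm⟩ := hg
    rw [gm_lq_eq hm, mul_eq_zero] at h
    rcases h with h | h
    · exact absurd h (gm_single_ne_zero _)
    · have h1 : qExpansion 1 (qH ^ m * g) = 0 := by
        apply HahnSeries.ofPowerSeries_injective (Γ := ℤ) (R := ℂ)
        simpa using h
      have h2 := hm.qExpansion_eq_zero_iff.mp h1
      ext τ
      have h3 := congrFun h2 τ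
      simp only [Pi.mul_apply, Pi.pow_apply, Pi.zero_apply, mul_eq_zero] at h3
      rcases h3 with h3 | h3
      · exact absurd h3 (pow_ne_zero m (qH_ne_zero τ))
      · simpa using h3
  · rintro rfl
    exact gm_lq_zero

theorem gm_lq_injective {f g : ℍ → ℂ} (hf : gm_IsMerQ f) (hg : gm_IsMerQ g)
    (h : gm_lq f = gm_lq g) : f = g := by
  have h1 : gm_lq (f - g) = 0 := by rw [gm_lq_sub hf hg, h, sub_self]
  exact sub_eq_zero.mp ((gm_lq_eq_zero_iff (hf.sub hg)).mp h1)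

/-! ### Coefficients, order, and the translation twist -/

theorem gm_lq_coeff {g : ℍ → ℂ} {m : ℕ} (h : IsQFun (qH ^ m * g)) (n : ℤ) :
    (gm_lq g).coeff n
      = if n + m < 0 then 0 else (qExpansion 1 (qH ^ m * g)).coeff (n + m).natAbs := by
  rw [gm_lq_eq h]
  have h1 := HahnSeries.coeff_single_mul_add (r := (1 : ℂ))
    (x := HahnSeries.ofPowerSeries ℤ ℂ (qExpansion 1 (qH ^ m * g))) (a := n + m) (b := -(m : ℤ))
  rw [show n + (m : ℤ) + -(m : ℤ) = n by ring, one_mul] at h1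
  rw [h1]
  exact PowerSeries.coeff_coe (qExpansion 1 (qH ^ m * g)) (n + m)

theorem gm_lq_coeff_of_lt {g : ℍ → ℂ} {m : ℕ} (h : IsQFun (qH ^ m * g)) {n : ℤ}
    (hn : n < -(m : ℤ)) : (gm_lq g).coeff n = 0 := by
  rw [gm_lq_coeff h, if_pos (by omega)]

theorem gm_lq_coeff_add {g : ℍ → ℂ} {m : ℕ} (h : IsQFun (qH ^ m * g)) (k : ℕ) :
    (gm_lq g).coeff ((k : ℤ) - m) = (qExpansion 1 (qH ^ m * g)).coeff k := by
  rw [gm_lq_coeff h, if_neg (by omega)]
  congr 2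
  omega

theorem gm_lq_coeff_neg {g : ℍ → ℂ} {m : ℕ} (h : IsQFun (qH ^ m * g)) :
    (gm_lq g).coeff (-(m : ℤ)) = valueAtInfty (qH ^ m * g) := by
  have h1 := gm_lq_coeff_add h 0
  simp only [Nat.cast_zero, zero_sub] at h1
  rw [h1, qExpansion_coeff_zero one_pos h.analyticAt h.periodic']

theorem gm_lq_order {g : ℍ → ℂ} {m : ℕ} (h : IsQFun (qH ^ m * g))
    (hv : valueAtInfty (qH ^ m * g) ≠ 0) : (gm_lq g).order = -(m : ℤ) := by
  have hc : (gm_lq g).coeff (-(m : ℤ)) ≠ 0 := by rwa [gm_lq_coeff_neg h]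
  have hne : gm_lq g ≠ 0 := by
    intro h0
    rw [h0] at hc
    simp at hc
  refine le_antisymm (HahnSeries.order_le_of_coeff_ne_zero hc) ?_
  by_contra hlt
  rw [not_le] at hlt
  exact hne (HahnSeries.coeff_order_eq_zero.mp (gm_lq_coeff_of_lt h hlt))

theorem gm_lq_order_of_tendsto {g : ℍ → ℂ} {m : ℕ} (h : IsQFun (qH ^ m * g)) {c : ℂ}
    (hc : c ≠ 0) (ht : Tendsto (qH ^ m * g) atImInfty (𝓝 c)) :
    (gm_lq g).order = -(m : ℤ) ∧ (gm_lq g).coeff (-(m : ℤ)) = c := by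
  have hv : valueAtInfty (qH ^ m * g) = c := IsQFun.valueAtInfty_eq h ht
  exact ⟨gm_lq_order h (by rwa [hv]), by rw [gm_lq_coeff_neg h, hv]⟩

theorem gm_IsMerQ.vadd {g : ℍ → ℂ} (hg : gm_IsMerQ g) (a : ℝ) :
    gm_IsMerQ (fun τ => g (a +ᵥ τ)) := by
  obtain ⟨m, hm⟩ := hg
  refine ⟨m, ?_⟩
  have h1 := (gm_isQFun_vadd hm a).smul ((cexp (2 * π * Complex.I * a))⁻¹ ^ m)
  convert h1 using 1
  ext τ
  simp only [Pi.mul_apply, Pi.pow_apply, Pi.smul_apply, smul_eq_mul, gm_qH_vadd, mul_pow]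
  have h0 : cexp (2 * π * Complex.I * a) ≠ 0 := Complex.exp_ne_zero _
  have hz : (cexp (2 * π * Complex.I * a))⁻¹ ^ m * cexp (2 * π * Complex.I * a) ^ m = 1 := by
    rw [← mul_pow, inv_mul_cancel₀ h0, one_pow]
  linear_combination (-(qH τ ^ m * g (a +ᵥ τ))) * hz

/-- **translation = twist**: the Laurent coefficients of `τ ↦ g (a + τ)` are those of `g`
multiplied by `exp (2 π i a) ^ n`. -/
theorem gm_lq_coeff_vadd {g : ℍ → ℂ} (hg : gm_IsMerQ g) (a : ℝ) (n : ℤ) :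
    (gm_lq (fun τ => g (a +ᵥ τ))).coeff n
      = cexp (2 * π * Complex.I * a) ^ n * (gm_lq g).coeff n := by
  obtain ⟨m, hm⟩ := hg
  set ζ : ℂ := cexp (2 * π * Complex.I * a) with hζ
  have hζ0 : ζ ≠ 0 := Complex.exp_ne_zero _
  have he : qH ^ m * (fun τ => g (a +ᵥ τ)) = (ζ⁻¹ ^ m) • (fun τ => (qH ^ m * g) (a +ᵥ τ)) := by
    ext τ
    simp only [Pi.mul_apply, Pi.pow_apply, Pi.smul_apply, smul_eq_mul, gm_qH_vadd, mul_pow, ← hζ]
    have hz : ζ⁻¹ ^ m * ζ ^ m = 1 := by rw [← mul_pow, inv_mul_cancel₀ hζ0, one_pow]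
    linear_combination (-(qH τ ^ m * g (a +ᵥ τ))) * hz
  have h1 : IsQFun (qH ^ m * (fun τ => g (a +ᵥ τ))) := by
    rw [he]; exact (gm_isQFun_vadd hm a).smul _
  rw [gm_lq_coeff h1, gm_lq_coeff hm]
  by_cases hn : n + m < 0
  · simp [hn]
  · rw [if_neg hn, if_neg hn, he, qExpansion_smul (gm_isQFun_vadd hm a).analyticAt,
      PowerSeries.coeff_smul, gm_qExpansion_vadd hm a, ← hζ, smul_eq_mul]
    obtain ⟨k, hk⟩ : ∃ k : ℕ, n + m = k := ⟨(n + m).toNat, by omega⟩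
    rw [hk, Int.natAbs_natCast]
    have hn' : n = (k : ℤ) - m := by omega
    rw [hn', zpow_sub₀ hζ0, zpow_natCast, zpow_natCast]
    have hz : ζ⁻¹ ^ m * ζ ^ m = 1 := by rw [← mul_pow, inv_mul_cancel₀ hζ0, one_pow]
    have hz' : ζ ^ m ≠ 0 := pow_ne_zero m hζ0
    rw [div_eq_mul_inv]
    ring

end Fermat.Agent.S24
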