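/-
M3 (S24 cluster), germ piece (An3): cusp germs.  For an `N`-periodic holomorphic function `g`
on `ℍ` that is meromorphic at `i∞`, `gm_cusp N g` is its Laurent expansion in the local parameter
`s = exp (2 π i z / N)`; it is the Laurent `q`-expansion (`gm_lq`) of `τ ↦ g (N τ)`.
Ring homomorphism, injective, `z ↦ z + 1` is the coefficient twist by `exp (2 π i / N)`, and for
`1`-periodic `g` it is the `q`-expansion with `q` replaced by `s ^ N`.
-/
import Mathlib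
import Fermat.Agent.S24.Germ.LaurentQ

set_option autoImplicit false

open UpperHalfPlane Complex Filter Topology Function
open scoped Manifold Real MatrixGroups
open Fermat.Agent.S23.QF (IsQFun)

namespace Fermat.Agent.S24

/-! ### The scaling map `τ ↦ N τ` -/

/-- `τ ↦ N τ` on the upper half plane -/
noncomputable def gm_scaleMap (N : ℕ) [NeZero N] (τ : ℍ) : ℍ :=
  ⟨(N : ℂ) * τ, by
    have h1 : (0 : ℝ) < N := Nat.cast_pos.mpr (NeZero.pos N)
    simpa using mul_pos h1 τ.im_pos⟩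

variable (N : ℕ) [NeZero N]

theorem gm_coe_scaleMap (τ : ℍ) : (gm_scaleMap N τ : ℂ) = (N : ℂ) * τ := rfl

theorem gm_im_scaleMap (τ : ℍ) : (gm_scaleMap N τ).im = N * τ.im := by
  have : (gm_scaleMap N τ).im = ((N : ℂ) * τ).im := rfl
  rw [this]
  simp

theorem gm_qH_scaleMap (τ : ℍ) : qH (gm_scaleMap N τ) = qH τ ^ N := by
  simp only [qH, Periodic.qParam, gm_coe_scaleMap, ofReal_one, div_one]
  rw [← Complex.exp_nat_mul]
  congr 1
  ring

theorem gm_scaleMap_vadd (a : ℝ) (τ : ℍ) :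
    gm_scaleMap N (a +ᵥ τ) = ((N : ℝ) * a) +ᵥ gm_scaleMap N τ := by
  apply UpperHalfPlane.ext
  simp only [gm_coe_scaleMap, coe_vadd]
  push_cast
  ring

theorem gm_scaleMap_surjective : Surjective (gm_scaleMap N) := by
  intro z
  have h1 : (0 : ℝ) < N := Nat.cast_pos.mpr (NeZero.pos N)
  have hN : (N : ℂ) ≠ 0 := Nat.cast_ne_zero.mpr (NeZero.ne N)
  refine ⟨⟨(z : ℂ) / N, ?_⟩, ?_⟩
  · have : ((z : ℂ) / N).im = z.im / N := by
      rw [show ((N : ℂ)) = ((N : ℝ) : ℂ) by push_cast; rfl, Complex.div_ofReal_im]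
      rfl
    rw [this]
    exact div_pos z.im_pos h1
  · apply UpperHalfPlane.ext
    rw [gm_coe_scaleMap]
    field_simp

theorem gm_mdiff_comp_scaleMap {g : ℍ → ℂ} (hg : MDiff g) : MDiff (g ∘ gm_scaleMap N) :=
  gm_mdiff_comp hg (Θ := fun w => (N : ℂ) * w)
    ((differentiable_id.const_mul _).differentiableOn) fun _ => rfl

theorem gm_isBounded_comp_scaleMap {G : ℍ → ℂ} (hG : IsBoundedAtImInfty G) :
    IsBoundedAtImInfty (G ∘ gm_scaleMap N) := by
  rw [UpperHalfPlane.isBoundedAtImInfty_iff] at hG ⊢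
  obtain ⟨M, A, hMA⟩ := hG
  refine ⟨M, max A 0, fun z hz => hMA _ ?_⟩
  rw [gm_im_scaleMap]
  have h1 : (1 : ℝ) ≤ N := by exact_mod_cast NeZero.one_le
  have h2 : 0 ≤ z.im := z.im_pos.le
  have h3 : A ≤ z.im := le_trans (le_max_left _ _) hz
  nlinarith

/-! ### `N`-periodic functions meromorphic at `i∞` -/

/-- `g` is holomorphic, `N`-periodic, and meromorphic at `i∞` -/
structure gm_IsMerCusp (g : ℍ → ℂ) : Prop where
  mdiff : MDiff g
  periodic : ∀ z : ℍ, g ((N : ℝ) +ᵥ z) = g z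
  mer : ∃ m : ℕ, IsBoundedAtImInfty (qH ^ m * g)

variable {N}

theorem gm_IsMerCusp.isQFun {g : ℍ → ℂ} (hg : gm_IsMerCusp N g) {m : ℕ}
    (hm : IsBoundedAtImInfty (qH ^ m * g)) : IsQFun (qH ^ (N * m) * (g ∘ gm_scaleMap N)) := by
  have he : qH ^ (N * m) * (g ∘ gm_scaleMap N) = (qH ^ m * g) ∘ gm_scaleMap N := by
    ext τ
    simp only [Pi.mul_apply, Pi.pow_apply, comp_apply, gm_qH_scaleMap, pow_mul]
  rw [he]
  refine ⟨gm_mdiff_comp_scaleMap N ((isQFun_qH.pow m).mdiff.mul hg.mdiff), ?_,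
    gm_isBounded_comp_scaleMap N hm⟩
  refine gm_periodic_of_vadd fun τ => ?_
  simp only [comp_apply, gm_scaleMap_vadd, mul_one, Pi.mul_apply, Pi.pow_apply, hg.periodic]
  congr 2
  rw [gm_qH_vadd]
  have : cexp (2 * π * Complex.I * ((N : ℝ) : ℂ)) = 1 := by
    have := Complex.exp_nat_mul_two_pi_mul_I N
    rw [← this]
    congr 1
    push_cast
    ring
  rw [this, one_mul]

theorem gm_IsMerCusp.isMerQ {g : ℍ → ℂ} (hg : gm_IsMerCusp N g) :
    gm_IsMerQ (g ∘ gm_scaleMap N) := by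
  obtain ⟨m, hm⟩ := hg.mer
  exact ⟨N * m, hg.isQFun hm⟩

theorem gm_isBounded_of_le {g : ℍ → ℂ} {m n : ℕ} (h : IsBoundedAtImInfty (qH ^ m * g))
    (hmn : m ≤ n) : IsBoundedAtImInfty (qH ^ n * g) := by
  have : qH ^ n * g = qH ^ (n - m) * (qH ^ m * g) := by
    rw [← mul_assoc, ← pow_add, Nat.sub_add_cancel hmn]
  rw [this]
  exact (isQFun_qH.pow _).bdd.mul h

omit [NeZero N] in
theorem gm_IsMerCusp.const (c : ℂ) : gm_IsMerCusp N (fun _ : ℍ => c) :=
  ⟨mdifferentiable_const, fun _ => rfl, 0, by simpa using (IsQFun.const c).bdd⟩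

omit [NeZero N] in
theorem gm_IsMerCusp.zero : gm_IsMerCusp N (0 : ℍ → ℂ) := gm_IsMerCusp.const 0

omit [NeZero N] in
theorem gm_IsMerCusp.one : gm_IsMerCusp N (1 : ℍ → ℂ) := gm_IsMerCusp.const 1

omit [NeZero N] in
theorem gm_IsMerCusp.add {f g : ℍ → ℂ} (hf : gm_IsMerCusp N f) (hg : gm_IsMerCusp N g) :
    gm_IsMerCusp N (f + g) := by
  obtain ⟨m, hm⟩ := hf.mer
  obtain ⟨n, hn⟩ := hg.mer
  refine ⟨hf.mdiff.add hg.mdiff, fun z => by simp [hf.periodic, hg.periodic], m + n, ?_⟩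
  rw [mul_add]
  exact (gm_isBounded_of_le hm (Nat.le_add_right m n)).add
    (gm_isBounded_of_le hn (Nat.le_add_left n m))

omit [NeZero N] in
theorem gm_IsMerCusp.neg {f : ℍ → ℂ} (hf : gm_IsMerCusp N f) : gm_IsMerCusp N (-f) := by
  obtain ⟨m, hm⟩ := hf.mer
  refine ⟨hf.mdiff.neg, fun z => by simp [hf.periodic], m, ?_⟩
  rw [mul_neg]
  exact hm.neg

omit [NeZero N] in
theorem gm_IsMerCusp.sub {f g : ℍ → ℂ} (hf : gm_IsMerCusp N f) (hg : gm_IsMerCusp N g) :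
    gm_IsMerCusp N (f - g) := by
  rw [sub_eq_add_neg]
  exact hf.add hg.neg

omit [NeZero N] in
theorem gm_IsMerCusp.mul {f g : ℍ → ℂ} (hf : gm_IsMerCusp N f) (hg : gm_IsMerCusp N g) :
    gm_IsMerCusp N (f * g) := by
  obtain ⟨m, hm⟩ := hf.mer
  obtain ⟨n, hn⟩ := hg.mer
  refine ⟨hf.mdiff.mul hg.mdiff, fun z => by simp [hf.periodic, hg.periodic], m + n, ?_⟩
  have : qH ^ (m + n) * (f * g) = (qH ^ m * f) * (qH ^ n * g) := by
    rw [pow_add]; ring
  rw [this]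
  exact hm.mul hn

omit [NeZero N] in
theorem gm_IsMerCusp.smul {f : ℍ → ℂ} (c : ℂ) (hf : gm_IsMerCusp N f) :
    gm_IsMerCusp N (c • f) := by
  have : c • f = (fun _ : ℍ => c) * f := by ext; simp
  rw [this]
  exact (gm_IsMerCusp.const c).mul hf

omit [NeZero N] in
theorem gm_IsMerCusp.pow {f : ℍ → ℂ} (hf : gm_IsMerCusp N f) (n : ℕ) :
    gm_IsMerCusp N (f ^ n) := by
  induction n with
  | zero => simpa using gm_IsMerCusp.one
  | succ n ih => rw [pow_succ]; exact ih.mul hf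

omit [NeZero N] in
/-- a `1`-periodic function meromorphic at `i∞` is `N`-periodic meromorphic at `i∞` -/
theorem gm_IsMerQ.isMerCusp {g : ℍ → ℂ} (hg : gm_IsMerQ g) : gm_IsMerCusp N g := by
  refine ⟨hg.mdiff, fun z => ?_, ?_⟩
  · have h : ∀ k : ℕ, ∀ z : ℍ, g ((k : ℝ) +ᵥ z) = g z := by
      intro k
      induction k with
      | zero => intro z; simp
      | succ k ih =>
        intro z
        have h1 : (((k + 1 : ℕ) : ℝ) +ᵥ z) = (1 : ℝ) +ᵥ ((k : ℝ) +ᵥ z) := by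
          apply UpperHalfPlane.ext
          simp only [coe_vadd]
          push_cast
          ring
        rw [h1, hg.vadd_one, ih]
    exact h N z
  · obtain ⟨m, hm⟩ := hg
    exact ⟨m, hm.bdd⟩

/-! ### The cusp germ -/

variable (N)

/-- the Laurent expansion of `g` in `s = exp (2 π i z / N)` -/
noncomputable def gm_cusp (g : ℍ → ℂ) : LaurentSeries ℂ := gm_lq (g ∘ gm_scaleMap N)

variable {N}

theorem gm_cusp_const (c : ℂ) : gm_cusp N (fun _ => c) = HahnSeries.C c := gm_lq_const c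

theorem gm_cusp_zero : gm_cusp N 0 = 0 := gm_lq_zero

theorem gm_cusp_one : gm_cusp N 1 = 1 := gm_lq_one

theorem gm_cusp_add {f g : ℍ → ℂ} (hf : gm_IsMerCusp N f) (hg : gm_IsMerCusp N g) :
    gm_cusp N (f + g) = gm_cusp N f + gm_cusp N g :=
  gm_lq_add hf.isMerQ hg.isMerQ

theorem gm_cusp_neg {f : ℍ → ℂ} (hf : gm_IsMerCusp N f) : gm_cusp N (-f) = -gm_cusp N f :=
  gm_lq_neg hf.isMerQ

theorem gm_cusp_sub {f g : ℍ → ℂ} (hf : gm_IsMerCusp N f) (hg : gm_IsMerCusp N g) :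
    gm_cusp N (f - g) = gm_cusp N f - gm_cusp N g :=
  gm_lq_sub hf.isMerQ hg.isMerQ

theorem gm_cusp_mul {f g : ℍ → ℂ} (hf : gm_IsMerCusp N f) (hg : gm_IsMerCusp N g) :
    gm_cusp N (f * g) = gm_cusp N f * gm_cusp N g :=
  gm_lq_mul hf.isMerQ hg.isMerQ

theorem gm_cusp_smul {f : ℍ → ℂ} (c : ℂ) (hf : gm_IsMerCusp N f) :
    gm_cusp N (c • f) = HahnSeries.C c * gm_cusp N f :=
  gm_lq_smul c hf.isMerQ

theorem gm_cusp_pow {f : ℍ → ℂ} (hf : gm_IsMerCusp N f) (n : ℕ) :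
    gm_cusp N (f ^ n) = gm_cusp N f ^ n :=
  gm_lq_pow hf.isMerQ n

/-- injectivity of the cusp germ -/
theorem gm_cusp_eq_zero_iff {g : ℍ → ℂ} (hg : gm_IsMerCusp N g) : gm_cusp N g = 0 ↔ g = 0 := by
  rw [gm_cusp, gm_lq_eq_zero_iff hg.isMerQ]
  constructor
  · intro h
    ext z
    obtain ⟨τ, rfl⟩ := gm_scaleMap_surjective N z
    exact congrFun h τ
  · rintro rfl
    rfl

theorem gm_cusp_injective {f g : ℍ → ℂ} (hf : gm_IsMerCusp N f) (hg : gm_IsMerCusp N g)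
    (h : gm_cusp N f = gm_cusp N g) : f = g := by
  have h1 : gm_cusp N (f - g) = 0 := by rw [gm_cusp_sub hf hg, h, sub_self]
  exact sub_eq_zero.mp ((gm_cusp_eq_zero_iff (hf.sub hg)).mp h1)

omit [NeZero N] in
theorem gm_IsMerCusp.vadd {g : ℍ → ℂ} (hg : gm_IsMerCusp N g) (a : ℝ) :
    gm_IsMerCusp N (fun z => g (a +ᵥ z)) := by
  refine ⟨?_, fun z => ?_, ?_⟩
  · have : (fun τ : ℍ => g (a +ᵥ τ)) = g ∘ (fun τ : ℍ => a +ᵥ τ) := rfl
    rw [this]
    refine gm_mdiff_comp hg.mdiff (Θ := fun w => (a : ℂ) + w) ?_ fun τ => by simp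
    exact (differentiable_id.const_add _).differentiableOn
  · rw [← hg.periodic (a +ᵥ z)]
    congr 1
    apply UpperHalfPlane.ext
    simp only [coe_vadd]
    ring
  · obtain ⟨m, hm⟩ := hg.mer
    refine ⟨m, ?_⟩
    have hb : IsBoundedAtImInfty (fun z => (qH ^ m * g) (a +ᵥ z)) := by
      rw [UpperHalfPlane.isBoundedAtImInfty_iff] at hm ⊢
      obtain ⟨M, A, hMA⟩ := hm
      refine ⟨M, A, fun z hz => hMA _ ?_⟩
      simpa using hz
    have he : qH ^ m * (fun z => g (a +ᵥ z))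
        = (fun _ : ℍ => (cexp (2 * π * Complex.I * a))⁻¹ ^ m) * fun z => (qH ^ m * g) (a +ᵥ z) := by
      ext τ
      simp only [Pi.mul_apply, Pi.pow_apply, gm_qH_vadd, mul_pow]
      have h0 : cexp (2 * π * Complex.I * a) ≠ 0 := Complex.exp_ne_zero _
      have hz : (cexp (2 * π * Complex.I * a))⁻¹ ^ m * cexp (2 * π * Complex.I * a) ^ m = 1 := by
        rw [← mul_pow, inv_mul_cancel₀ h0, one_pow]
      linear_combination (-(qH τ ^ m * g (a +ᵥ τ))) * hz
    rw [he]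
    exact (IsQFun.const _).bdd.mul hb

/-- **translation = twist** at a cusp of width `N`: `z ↦ a + z` multiplies the `n`-th Laurent
coefficient by `exp (2 π i a / N) ^ n`. -/
theorem gm_cusp_coeff_vadd {g : ℍ → ℂ} (hg : gm_IsMerCusp N g) (a : ℝ) (n : ℤ) :
    (gm_cusp N (fun z => g (a +ᵥ z))).coeff n
      = cexp (2 * π * Complex.I * a / N) ^ n * (gm_cusp N g).coeff n := by
  have hN : (N : ℝ) ≠ 0 := Nat.cast_ne_zero.mpr (NeZero.ne N)
  have h1 : (fun z => g (a +ᵥ z)) ∘ gm_scaleMap N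
      = fun τ => (g ∘ gm_scaleMap N) ((a / N : ℝ) +ᵥ τ) := by
    ext τ
    simp only [comp_apply, gm_scaleMap_vadd]
    congr 2
    field_simp
  rw [gm_cusp, h1, gm_lq_coeff_vadd hg.isMerQ, gm_cusp]
  congr 3
  push_cast
  ring

/-- the case `a = 1`: `T` acts by the twist by `ζ_N = exp (2 π i / N)` -/
theorem gm_cusp_coeff_vadd_one {g : ℍ → ℂ} (hg : gm_IsMerCusp N g) (n : ℤ) :
    (gm_cusp N (fun z => g ((1 : ℝ) +ᵥ z))).coeff n
      = cexp (2 * π * Complex.I / N) ^ n * (gm_cusp N g).coeff n := by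
  have := gm_cusp_coeff_vadd hg 1 n
  simpa using this

theorem gm_isPrimitiveRoot : IsPrimitiveRoot (cexp (2 * π * Complex.I / N)) N :=
  Complex.isPrimitiveRoot_exp N (NeZero.ne N)

/-! ### The `1`-periodic case: `q = s ^ N` -/

theorem gm_tendsto_scaleMap : Tendsto (gm_scaleMap N) atImInfty atImInfty := by
  rw [atImInfty, tendsto_comap_iff]
  have h1 : (UpperHalfPlane.im ∘ gm_scaleMap N) = fun τ : ℍ => (N : ℝ) * τ.im := by
    ext τ
    exact gm_im_scaleMap N τ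
  rw [h1]
  have hN : (0 : ℝ) < N := Nat.cast_pos.mpr (NeZero.pos N)
  exact (tendsto_comap (f := UpperHalfPlane.im) (x := atTop)).const_mul_atTop hN

theorem gm_qExpansion_comp_scaleMap {G : ℍ → ℂ} (hG : IsQFun G) (n : ℕ) :
    (qExpansion 1 (G ∘ gm_scaleMap N)).coeff n
      = if N ∣ n then (qExpansion 1 G).coeff (n / N) else 0 := by
  have hN : 0 < N := NeZero.pos N
  have hq : IsQFun (G ∘ gm_scaleMap N) := by
    have h1 : gm_IsMerCusp N G := (gm_IsMerQ.of_isQFun hG).isMerCusp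
    have h2 := h1.isQFun (m := 0) (by simpa using hG.bdd)
    simpa using h2
  refine gm_coeff_unique hq
    (c := fun n => if N ∣ n then (qExpansion 1 G).coeff (n / N) else 0) (fun τ => ?_) n
  have h := gm_hasSum hG (gm_scaleMap N τ)
  have hinj : Injective fun k : ℕ => N * k := fun a b hab => Nat.eq_of_mul_eq_mul_left hN hab
  rw [← hinj.hasSum_iff]
  · refine h.congr_fun fun k => ?_
    simp only [comp_apply, dvd_mul_right, if_true, Nat.mul_div_cancel_left k hN, gm_qH_scaleMap,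
      pow_mul, smul_eq_mul]
  · intro x hx
    have : ¬ N ∣ x := fun ⟨k, hk⟩ => hx ⟨k, hk.symm⟩
    simp [this]

/-- for a `1`-periodic `g`, the cusp germ of width `N` is the Laurent `q`-expansion with `q`
replaced by `s ^ N` -/
theorem gm_cusp_coeff_of_isMerQ {g : ℍ → ℂ} (hg : gm_IsMerQ g) (n : ℤ) :
    (gm_cusp N g).coeff n = if (N : ℤ) ∣ n then (gm_lq g).coeff (n / N) else 0 := by
  obtain ⟨m, hm⟩ := hg
  have hN : 0 < N := NeZero.pos N
  have hNz : (0 : ℤ) < N := by exact_mod_cast hN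
  have he : qH ^ (N * m) * (g ∘ gm_scaleMap N) = (qH ^ m * g) ∘ gm_scaleMap N := by
    ext τ
    simp only [Pi.mul_apply, Pi.pow_apply, comp_apply, gm_qH_scaleMap, pow_mul]
  have hq : IsQFun (qH ^ (N * m) * (g ∘ gm_scaleMap N)) :=
    (gm_IsMerQ.isMerCusp ⟨m, hm⟩).isQFun hm.bdd
  rw [gm_cusp, gm_lq_coeff hq, gm_lq_coeff hm, he]
  by_cases hd : (N : ℤ) ∣ n
  · obtain ⟨k, rfl⟩ := hd
    rw [if_pos (dvd_mul_right _ _), Int.mul_ediv_cancel_left k hNz.ne']
    have h1 : (N : ℤ) * k + ((N * m : ℕ) : ℤ) = N * (k + m) := by push_cast; ring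
    rw [h1]
    by_cases hk : k + m < 0
    · rw [if_pos hk, if_pos (by nlinarith)]
    · rw [if_neg hk, if_neg (by nlinarith)]
      obtain ⟨j, hj⟩ : ∃ j : ℕ, k + m = j := ⟨(k + m).toNat, by omega⟩
      rw [hj, gm_qExpansion_comp_scaleMap hm]
      have h2 : ((N : ℤ) * (j : ℤ)).natAbs = N * j := by
        rw [Int.natAbs_mul, Int.natAbs_natCast, Int.natAbs_natCast]
      rw [h2, if_pos (dvd_mul_right _ _), Nat.mul_div_cancel_left j hN, Int.natAbs_natCast]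
  · rw [if_neg hd]
    by_cases hk : n + ((N * m : ℕ) : ℤ) < 0
    · rw [if_pos hk]
    · rw [if_neg hk, gm_qExpansion_comp_scaleMap hm, if_neg]
      intro hdvd
      apply hd
      have h3 : ((n + ((N * m : ℕ) : ℤ)).natAbs : ℤ) = n + ((N * m : ℕ) : ℤ) :=
        Int.natAbs_of_nonneg (by omega)
      have h4 : (N : ℤ) ∣ n + ((N * m : ℕ) : ℤ) := by
        rw [← h3]
        exact_mod_cast hdvd
      have h5 : (N : ℤ) ∣ ((N * m : ℕ) : ℤ) := by
        push_cast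
        exact dvd_mul_right _ _
      exact (Int.dvd_add_left h5).mp h4

/-- the cusp germ of `j` has a pole of order exactly `N` with leading coefficient `1` -/
theorem gm_cusp_kleinJ_order :
    (gm_cusp N kleinJ).order = -(N : ℤ) ∧ (gm_cusp N kleinJ).coeff (-(N : ℤ)) = 1 := by
  have he : qH ^ N * (kleinJ ∘ gm_scaleMap N) = (qH * kleinJ) ∘ gm_scaleMap N := by
    ext τ
    simp only [Pi.mul_apply, Pi.pow_apply, comp_apply, gm_qH_scaleMap]
  have hq : IsQFun (qH ^ N * (kleinJ ∘ gm_scaleMap N)) := by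
    have h1 : IsBoundedAtImInfty (qH ^ 1 * kleinJ) := by simpa using isQFun_qH_mul_kleinJ.bdd
    have h2 := (gm_IsMerQ.isMerCusp (N := N) gm_isMerQ_kleinJ).isQFun h1
    simpa using h2
  have ht : Tendsto (qH ^ N * (kleinJ ∘ gm_scaleMap N)) atImInfty (𝓝 1) := by
    rw [he]
    exact tendsto_qH_mul_kleinJ.comp gm_tendsto_scaleMap
  exact gm_lq_order_of_tendsto hq one_ne_zero ht

/-! ### `N`-periodicity of translates of `Γ₀(N)`-invariant functions -/

omit [NeZero N] in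
theorem gm_conj_T_pow_mem_Gamma0 (γ : SL(2, ℤ)) :
    γ * ModularGroup.T ^ (N : ℤ) * γ⁻¹ ∈ CongruenceSubgroup.Gamma0 N := by
  rw [CongruenceSubgroup.Gamma0_mem]
  have h1 : (γ * ModularGroup.T ^ (N : ℤ) * γ⁻¹) 1 0 = -(γ 1 0 * γ 1 0 * N) := by
    have h3 : (γ * ModularGroup.T ^ (N : ℤ) * γ⁻¹).1
        = γ.1 * (ModularGroup.T ^ (N : ℤ)).1 * (γ⁻¹).1 := by
      simp
    show (γ * ModularGroup.T ^ (N : ℤ) * γ⁻¹).1 1 0 = _
    rw [h3, ModularGroup.coe_T_zpow, Matrix.SpecialLinearGroup.SL2_inv_expl]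
    rw [Matrix.mul_apply]
    simp only [Fin.sum_univ_two]
    rw [Matrix.mul_apply, Matrix.mul_apply]
    simp [Fin.sum_univ_two]
    ring
  rw [h1]
  push_cast
  simp

omit [NeZero N] in
/-- if `h` is `Γ₀(N)`-invariant then every `SL₂(ℤ)`-translate of `h` is `N`-periodic -/
theorem gm_periodic_comp_smul {h : ℍ → ℂ}
    (hinv : ∀ g ∈ CongruenceSubgroup.Gamma0 N, ∀ z : ℍ, h (g • z) = h z) (γ : SL(2, ℤ)) (z : ℍ) :
    h (γ • ((N : ℝ) +ᵥ z)) = h (γ • z) := by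
  have h1 : ((N : ℝ) +ᵥ z) = ModularGroup.T ^ (N : ℤ) • z := by
    rw [modular_T_zpow_smul]
    simp
  have h2 : γ • (ModularGroup.T ^ (N : ℤ) • z)
      = (γ * ModularGroup.T ^ (N : ℤ) * γ⁻¹) • (γ • z) := by
    simp only [mul_smul, inv_smul_smul]
  rw [h1, h2, hinv _ (gm_conj_T_pow_mem_Gamma0 γ)]

omit [NeZero N] in
/-- the hypotheses of helper17's weakly modular functions give `gm_IsMerCusp` for translates -/
theorem gm_isMerCusp_comp_smul {h : ℍ → ℂ} (hh : MDiff h)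
    (hinv : ∀ g ∈ CongruenceSubgroup.Gamma0 N, ∀ z : ℍ, h (g • z) = h z) (γ : SL(2, ℤ))
    (hmer : ∃ m : ℕ, IsBoundedAtImInfty (qH ^ m * fun z => h (γ • z))) :
    gm_IsMerCusp N (fun z => h (γ • z)) :=
  ⟨by
    have h1 : MDiff (fun τ : ℍ => (Matrix.SpecialLinearGroup.mapGL ℝ γ) • τ) :=
      mdifferentiable_smul (by simp)
    exact hh.comp h1, fun z => gm_periodic_comp_smul hinv γ z, hmer⟩

end Fermat.Agent.S24
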