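/-
M3 (S24 cluster): explicit rotation numbers of the elliptic stabilisers:
`gm_rot S I = -1` (primitive square root of unity) and `gm_rot (S * T) ρ = conj ρ`
(primitive cube root of unity), together with `(S * T) • ρ = ρ` and `S • I = I`.
-/
import Mathlib
import Fermat.Agent.S24.Germ.Disc

set_option autoImplicit false

open UpperHalfPlane Complex Filter Topology Function
open scoped Manifold Real ComplexConjugate MatrixGroups

namespace Fermat.Agent.S24

theorem gm_S_smul_I : ModularGroup.S • UpperHalfPlane.I = UpperHalfPlane.I := by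
  rw [ModularGroup.stabilizer_I]
  simp

theorem gm_ST_smul_rho : (ModularGroup.S * ModularGroup.T) • UpperHalfPlane.ρ = UpperHalfPlane.ρ := by
  rw [ModularGroup.stabilizer_ρ]
  simp

theorem gm_isPrimitiveRoot_rot_S_I :
    IsPrimitiveRoot (gm_rot ModularGroup.S UpperHalfPlane.I) 2 := by
  rw [gm_rot_S_I]
  exact IsPrimitiveRoot.neg_one 0 (by norm_num)

theorem gm_ST_entries : (ModularGroup.S * ModularGroup.T) 1 0 = 1 ∧
    (ModularGroup.S * ModularGroup.T) 1 1 = 1 := by
  have h : (ModularGroup.S * ModularGroup.T).1 = !![0, -1; 1, 1] := by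
    rw [Matrix.SpecialLinearGroup.coe_mul, ModularGroup.coe_S, ModularGroup.coe_T]
    ext i j
    fin_cases i <;> fin_cases j <;> simp [Matrix.mul_apply, Fin.sum_univ_two]
  constructor
  · show (ModularGroup.S * ModularGroup.T).1 1 0 = 1
    rw [h]; rfl
  · show (ModularGroup.S * ModularGroup.T).1 1 1 = 1
    rw [h]; rfl

theorem gm_rot_ST_rho :
    gm_rot (ModularGroup.S * ModularGroup.T) UpperHalfPlane.ρ = conj (UpperHalfPlane.ρ : ℂ) := by
  rw [gm_rot_int, gm_ST_entries.1, gm_ST_entries.2]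
  have h3 : (Real.sqrt 3) ^ 2 = 3 := Real.sq_sqrt (by norm_num)
  have hne : ((1 : ℤ) : ℂ) * (UpperHalfPlane.ρ : ℂ) + ((1 : ℤ) : ℂ) ≠ 0 := by
    intro h
    have := congrArg Complex.im h
    simp [UpperHalfPlane.ρ] at this
  rw [div_eq_iff hne]
  apply Complex.ext
  · simp [UpperHalfPlane.ρ]
    nlinarith
  · simp [UpperHalfPlane.ρ]
    nlinarith

theorem gm_rot_ST_rho_pow_three :
    gm_rot (ModularGroup.S * ModularGroup.T) UpperHalfPlane.ρ ^ 3 = 1 := by
  rw [gm_rot_ST_rho, ← map_pow]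
  have h1 : (UpperHalfPlane.ρ : ℂ) ^ 3 = 1 := by
    have h2 := UpperHalfPlane.ρ_sq
    calc (UpperHalfPlane.ρ : ℂ) ^ 3 = (UpperHalfPlane.ρ : ℂ) ^ 2 * UpperHalfPlane.ρ := by ring
      _ = (-(UpperHalfPlane.ρ : ℂ) - 1) * UpperHalfPlane.ρ := by rw [h2]
      _ = -((UpperHalfPlane.ρ : ℂ) ^ 2) - UpperHalfPlane.ρ := by ring
      _ = 1 := by rw [h2]; ring
  rw [h1, map_one]

theorem gm_isPrimitiveRoot_rot_ST_rho :
    IsPrimitiveRoot (gm_rot (ModularGroup.S * ModularGroup.T) UpperHalfPlane.ρ) 3 := by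
  have h3 := gm_rot_ST_rho_pow_three
  have h1 : gm_rot (ModularGroup.S * ModularGroup.T) UpperHalfPlane.ρ ≠ 1 := by
    rw [Ne, gm_rot_eq_one_iff _ gm_ST_smul_rho, gm_ST_entries.1]
    simp
  refine IsPrimitiveRoot.mk_of_lt _ (by norm_num) h3 fun l hl0 hl3 => ?_
  interval_cases l
  · simpa using h1
  · intro h2
    apply h1
    have h4 : gm_rot (ModularGroup.S * ModularGroup.T) UpperHalfPlane.ρ ^ 3
        = gm_rot (ModularGroup.S * ModularGroup.T) UpperHalfPlane.ρ ^ 2
          * gm_rot (ModularGroup.S * ModularGroup.T) UpperHalfPlane.ρ := by ring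
    rw [h3, h2, one_mul] at h4
    exact h4.symm

end Fermat.Agent.S24
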